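/-
S15 / GEOM: the analytic input `Atl.NEAt` from S15-NE.
-/
import Fermat.Agent.S15.Atl.NE2
import Fermat.Agent.S15.NE.Export

set_option autoImplicit false

namespace Fermat.Agent.S15.Geom

open CuspForm

theorem neAt (N : ℕ) [NeZero N] (q : ℕ) : Atl.NEAt N q := by
  intro hq hqN c hc f hf
  refine NE.eq_zero_of_heckeT_eq f hq.two_le (c := (c : ℂ)) ?_ ?_
  · rw [Complex.norm_intCast]
    rcases hc with rfl | rfl
    · rw [abs_of_nonneg (by positivity)]
      push_cast; linarith
    · push_cast
      rw [abs_neg, abs_of_nonneg (by positivity)]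
      linarith
  · rw [← coe_heckeTLin_apply 2 hq hqN, hf]
    rfl

end Fermat.Agent.S15.Geom
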