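/-
S15 / GEOM: assembly of `Geom` (the geometric input of `S15_of`) from the module exports.

DONE inside: (R0) = DivFin, `RCh`, `RJ1`, `RAtL` = ATL (`Geom/K.lean`), `RCusp` = CUSP, NE.
`RFin` = RED (`Red.rFin`).
REMAINING INPUTS (hypothesis form):
* `AtPIn`  : the contract `RAtP`                                          (S15-ATP)
* `PtIn`   : the rational class `x₀ = [(x) - (0)]` and its two reductions (S15-MOD)
-/
import Fermat.Agent.S15.Geom.K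
import Fermat.Agent.S15.Geom.NE
import Fermat.Agent.S15.Red.Export
import Fermat.Agent.S15.DivFin.Main
import Fermat.Agent.S15.Cusp.RCusp

set_option autoImplicit false

noncomputable section

namespace Fermat.Agent.S15.Geom

open WeierstrassCurve WeierstrassCurve.Affine AlgebraicCurve ModularCurve

/-- (AT p). -/
def AtPIn : Prop :=
  ∀ (p lam : ℕ), p.Prime → p ≠ 2 → lam.Prime → lam ≠ p →
    ∃ (Ap : ValuationSubring Qb) (W : AddSubgroup (JZero p)), Ap.LiesOverPrime p ∧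
      RAtP (JZero p) p lam Ap W

/-- (PT): the class `x₀ = [(x) - (0)]`, `c₀ = [(0) - (∞)]`. -/
def PtIn : Prop :=
  ∀ (p : ℕ) [NeZero p] (hp : p.Prime), p ∉ ({2, 3, 5, 7, 13} : Finset ℕ) →
    ∀ (W : WeierstrassCurve ℤ), W.Δ ≠ 0 →
    ∀ Q : ((W.map (Int.castRingHom ℚ))⁄(AlgebraicClosure ℚ)).Point,
    (∀ σ : AlgebraicClosure ℚ ≃ₐ[ℚ] AlgebraicClosure ℚ, σ • Q = Q) → addOrderOf Q = p →
    ∀ (q₀ : ℕ), (q₀ = 2 ∨ q₀ = 3) → (q₀ : ℤ) ∣ W.Δ → ¬ (q₀ : ℤ) ∣ W.c₄ →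
    ∀ A₀ : ValuationSubring (AlgebraicClosure ℚ), A₀.LiesOverPrime q₀ →
      ¬ W.InZeroComponentAt A₀ Q →
    ∀ (ℓ' : ℕ), ℓ'.Prime → 5 ≤ ℓ' → ℓ' ≠ p → (ℓ' : ℤ) ∣ W.Δ → ¬ (ℓ' : ℤ) ∣ W.c₄ →
    ∀ A' : ValuationSubring (AlgebraicClosure ℚ), A'.LiesOverPrime ℓ' →
      W.InZeroComponentAt A' Q →
    ∃ x₀ : JZero p, (∀ σ : GQ, σ • x₀ = x₀) ∧ x₀ ∈ Red.K1q p q₀ A₀ ∧
      x₀ + ((Cusp.cuspData p hp).c₀ : JZero p) ∈ Red.K1q p ℓ' A'

theorem geom_of (hatp : AtPIn) (hpt : PtIn) : Geom := by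
  intro p hp hp'
  have : NeZero p := ⟨hp.ne_zero⟩
  obtain ⟨lam, a, m, hd⟩ := Cusp.exists_isDescent hp hp'
  have hlam := hd.prime
  have hdvd : lam ∣ p - 1 := by
    have ha : a ≠ 0 := by
      rintro rfl
      exact hd.not_dvd' (by simp)
    rw [hd.eq]
    exact Dvd.dvd.mul_right (dvd_pow_self lam ha) m
  obtain ⟨Al, hAl⟩ := Lib.Frobenius.exists_liesOverPrime (K := AlgebraicClosure ℚ) lam hlam
  have hp2 : p ≠ 2 := by
    rintro rfl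
    simp at hp'
  obtain ⟨Ap, W, hAp, hW⟩ := hatp p lam hp hp2 hlam hd.ne
  refine ⟨lam, hlam, hd.ne, hdvd, hd.two_mul_le,
    { J1 := J1g p lam
      Al := Al
      hAl := hAl
      Tl := Atl.Tq p hlam
      Ap := Ap
      hAp := hAp
      W := W
      c := Cusp.cCl p hp m
      r0 := ⟨DivFin.smooth p, DivFin.div p hlam.pos, DivFin.fin p hlam.pos⟩
      rch := rCh hp hlam (fun q _ _ => neAt p q)
      rj1 := rJ1 hp hlam
      rfin := Red.rFin hp hlam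
      ratl := rAtL hp hlam hd.ne (neAt p lam) hAl
      ratp := hW
      rcusp := Cusp.rCusp hp hd (Red.Kfam p) Al hAl (Red.Kfam_eq p hlam hAl).le }, ?_⟩
  intro E hΔ Q hQfix hQord q₀ hq₀ hq₀l hq₀Δ hq₀c A₀ hA₀ h₀ ℓ' hℓ' h5 hℓ'p hℓ'l hℓ'Δ hℓ'c A' hA' hZ
  obtain ⟨x₀, hfix, hx0, hx1⟩ := hpt p hp hp' E hΔ Q hQfix hQord q₀ hq₀ hq₀Δ hq₀c A₀ hA₀ h₀
    ℓ' hℓ' h5 hℓ'p hℓ'Δ hℓ'c A' hA' hZ
  have hq₀p : q₀.Prime := by
    rcases hq₀ with rfl | rfl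
    · exact Nat.prime_two
    · exact Nat.prime_three
  have hc₀fix : ∀ σ : GQ, σ • Cusp.cCl p hp m = Cusp.cCl p hp m :=
    (Cusp.rCusp hp hd (Red.Kfam p) Al hAl (Red.Kfam_eq p hlam hAl).le).c_fix
  have hyfix : ∀ σ : GQ, σ • (m • x₀) = m • x₀ := fun σ => by rw [← smul_comm m σ x₀, hfix σ]
  refine ⟨m • x₀, hyfix, ?_, ?_⟩
  · refine Atl.mem_J1_of_fixed hlam hq₀p hq₀l hA₀ (fun δ _ => hyfix δ) ?_
    rw [Red.Kfam_eq p hq₀p hA₀]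
    exact AddSubgroup.nsmul_mem _ hx0 m
  · refine Atl.mem_J1_of_fixed hlam hℓ' hℓ'l hA' (fun δ _ => ?_) ?_
    · rw [smul_add, hyfix δ, hc₀fix δ]
    · rw [Red.Kfam_eq p hℓ' hA']
      have : m • x₀ + Cusp.cCl p hp m = m • (x₀ + ((Cusp.cuspData p hp).c₀ : JZero p)) := by
        exact (nsmul_add x₀ ((Cusp.cuspData p hp).c₀ : JZero p) m).symm
      rw [this]
      exact AddSubgroup.nsmul_mem _ hx1 m

end Fermat.Agent.S15.Geom
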