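/-
S15 / GEOM: Mazur's Eisenstein descent on `J₀(p)` in its final, curve-free form (for S12):
there is no `G_ℚ`-fixed class `x₀` of `J₀(p)` which reduces to `0` at a place `A₀ ∣ q₀` and such that
`x₀ + c₀` (`c₀ = [(0) - (∞)]`) reduces to `0` at a place `A' ∣ ℓ'`  (`q₀, ℓ' ∉ {p, lam}`).
NOT in the import closure of `S15.lean`.
-/
import Fermat.Agent.S15.Geom.Main
import Fermat.Agent.S15.ATP.AtP
import Fermat.Agent.S15.Abs.A.AOut45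

set_option autoImplicit false

noncomputable section

namespace Fermat.Agent.S15.Geom

open AlgebraicCurve ModularCurve

/-- the base data of the descent, with `J1` and `c` explicit. -/
theorem exists_base {p : ℕ} [NeZero p] (hp : p.Prime) (hp' : p ∉ ({2, 3, 5, 7, 13} : Finset ℕ)) :
    ∃ lam : ℕ, lam.Prime ∧ lam ≠ p ∧ lam ∣ p - 1 ∧ 2 * lam ≤ p - 1 ∧
      ∃ (B : GeomBase p lam) (m : ℕ), B.J1 = Atl.J1 (Red.Kfam p) lam ∧
        B.c = m • ((Cusp.cuspData p hp).c₀ : JZero p) := by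
  obtain ⟨lam, a, m, hd⟩ := Cusp.exists_isDescent hp hp'
  have hlam := hd.prime
  have hdvd : lam ∣ p - 1 := by
    have ha : a ≠ 0 := by
      rintro rfl
      exact hd.not_dvd' (by simp)
    rw [hd.eq]
    exact Dvd.dvd.mul_right (dvd_pow_self lam ha) m
  have hp2 : p ≠ 2 := by
    rintro rfl
    simp at hp'
  obtain ⟨Al, hAl⟩ := Lib.Frobenius.exists_liesOverPrime (K := AlgebraicClosure ℚ) lam hlam
  obtain ⟨Ap, W, hAp, hW⟩ := ATP.atPIn p lam hp hp2 hlam hd.ne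
  exact ⟨lam, hlam, hd.ne, hdvd, hd.two_mul_le,
    { J1 := J1g p lam
      Al := Al
      hAl := hAl
      Tl := Atl.Tq p hlam
      Ap := Ap
      hAp := hAp
      W := W
      c := Cusp.cCl p hp m
      r0 := ⟨DivFin.smooth p, DivFin.div p hlam.pos, DivFin.fin p hlam.pos⟩
      rch := rCh hp hlam (fun q _ _ => neAt p q)
      rj1 := rJ1 hp hlam
      rfin := Red.rFin hp hlam
      ratl := rAtL hp hlam hd.ne (neAt p lam) hAl
      ratp := hW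
      rcusp := Cusp.rCusp hp hd (Red.Kfam p) Al hAl (Red.Kfam_eq p hlam hAl).le }, m, rfl, rfl⟩

/-- **Mazur's Eisenstein descent on `J₀(p)`.** -/
theorem no_point {p : ℕ} [NeZero p] (hp : p.Prime) (hp' : p ∉ ({2, 3, 5, 7, 13} : Finset ℕ)) :
    ∃ lam : ℕ, lam.Prime ∧ lam ≠ p ∧ lam ∣ p - 1 ∧ 2 * lam ≤ p - 1 ∧
      ∀ x₀ : JZero p, (∀ σ : GQ, σ • x₀ = x₀) →
      ∀ q₀ : ℕ, q₀.Prime → q₀ ≠ p → q₀ ≠ lam →
      ∀ A₀ : ValuationSubring Qb, A₀.LiesOverPrime q₀ → x₀ ∈ Red.K1q p q₀ A₀ →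
      ∀ ℓ' : ℕ, ℓ'.Prime → ℓ' ≠ p → ℓ' ≠ lam →
      ∀ A' : ValuationSubring Qb, A'.LiesOverPrime ℓ' →
        x₀ + ((Cusp.cuspData p hp).c₀ : JZero p) ∈ Red.K1q p ℓ' A' → False := by
  obtain ⟨lam, hlam, hlamp, hdvd, hle, B, m, hJ1, hc⟩ := exists_base hp hp'
  refine ⟨lam, hlam, hlamp, hdvd, hle, ?_⟩
  intro x₀ hfix q₀ hq₀ hq₀p hq₀l A₀ hA₀ hx0 ℓ' hℓ' hℓ'p hℓ'l A' hA' hx1
  have hyfix : ∀ σ : GQ, σ • (m • x₀) = m • x₀ := fun σ => by rw [← smul_comm m σ x₀, hfix σ]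
  have hcfix : ∀ σ : GQ, σ • B.c = B.c := B.rcusp.c_fix
  have h0 : m • x₀ ∈ B.J1 A₀ := by
    rw [hJ1]
    refine Atl.mem_J1_of_fixed hlam hq₀ hq₀l hA₀ (fun δ _ => hyfix δ) ?_
    rw [Red.Kfam_eq p hq₀ hA₀]
    exact AddSubgroup.nsmul_mem _ hx0 m
  have h1 : m • x₀ + B.c ∈ B.J1 A' := by
    rw [hJ1]
    refine Atl.mem_J1_of_fixed hlam hℓ' hℓ'l hA' (fun δ _ => ?_) ?_
    · rw [smul_add, hyfix δ, hcfix δ]
    · rw [Red.Kfam_eq p hℓ' hA', hc, ← nsmul_add]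
      exact AddSubgroup.nsmul_mem _ hx1 m
  exact Abs.absDescent _ p lam (B.toRaw hp hlam hlamp hdvd (m • x₀) hyfix hq₀ hq₀p hq₀l A₀ hA₀ h0
    hℓ' hℓ'p hℓ'l A' hA' h1)

end Fermat.Agent.S15.Geom
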