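/-
S15 / GEOM: the contracts `RCh`, `RJ1`, `RAtL` of `Top.lean`
for `J1 := Atl.J1 (Red.Kfam p) lam`, `Tl := Atl.Tq p`
(`Red.Kfam N A = Red.K1q N q A`, `q` = the residue characteristic of `A`).
-/
import Fermat.Agent.S15.Top
import Fermat.Agent.S15.Atl.Export
import Fermat.Agent.S15.Red.Fam

set_option autoImplicit false

noncomputable section

namespace Fermat.Agent.S15.Geom

open AlgebraicCurve ModularCurve Fermat.Agent.S15.Atl

variable {p lam : ℕ} [NeZero p]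

/-- THE kernel of reduction of the raw data. -/
abbrev J1g (p lam : ℕ) [NeZero p] : ValuationSubring Qb → AddSubgroup (JZero p) :=
  Atl.J1 (Red.Kfam p) lam

theorem rCh (hp : p.Prime) (hlam : lam.Prime) (hNE : ∀ q : ℕ, q.Prime → q ≠ p → NEAt p q) :
    RCh (JZero p) p lam where
  ch := fun r σ k hk τ x hx => Atl.ch hlam r σ k hk τ x hx
  ne := fun q hq hqp hql A hA φ hφ => Atl.ne hp hlam q hq hqp hql (hNE q hq hqp) A hA φ hφ

theorem rJ1 (hp : p.Prime) (hlam : lam.Prime) : RJ1 (JZero p) p lam (J1g p lam) where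
  J1_decomp := fun _ _ _ A _ σ hσ z hz => Atl.J1_decomp A σ hσ z hz
  J1_inert := fun q hq hqp A hA σ hσ z => Atl.J1_inert (Red.k1Fam p) hp q hq hqp A hA σ hσ z
  J1_tor := fun q hq hqp hql A hA z hz hz' =>
    Atl.J1_tor (Red.k1Fam p) hp hlam q hq hqp hql A hA z hz hz'

theorem rAtL (hp : p.Prime) (hlam : lam.Prime) (hlamp : lam ≠ p) (hNE : NEAt p lam)
    {Al : ValuationSubring Qb} (hAl : Al.LiesOverPrime lam) :
    RAtL (JZero p) lam (J1g p lam) Al (Atl.Tq p hlam) where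
  Tℓ_mem := fun r x hx => Atl.Tℓ_mem hlam r x hx
  Tℓ_add := fun x _ y _ => Atl.Tℓ_add hlam x y
  Tℓ_gal := fun σ x _ => Atl.Tℓ_gal hp hlam hlamp σ x
  Tℓ_J1 := fun x _ hx => Atl.Tℓ_J1 hp hlam hlamp hAl x hx
  t_J1 := fun r σ k hk x hx hx' => Atl.t_J1 hlam hAl r σ k hk x hx hx'
  es_ℓ := fun φ hφ x hx => Atl.es_ℓ (Red.k1Fam p) hp hlam hlamp hAl φ hφ x hx
  ne_ℓ := Atl.ne_ℓ hp hlam hlamp hNE
  ne_ℓ' := Atl.ne_ℓ' hp hlam hlamp hNE

end Fermat.Agent.S15.Geom
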